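import Mathlib
import Fermat.Agent.GB.B3.CycPlug2
import Fermat.Agent.GB.B3.HeckeActH
import Fermat.Agent.GB.B3.HomFree
import Fermat.Agent.GB.B3.StepAbs
import Fermat.Agent.GE8.P3B.StepGen

/- TWIN (helper86, from the GE8/P3 twin of helper24) of `Fermat.Agent.GB.B3.StepInst` with `p ≠ 3` relaxed to `Ok3A Sy 𝔪 p` (RISK-5 fix (B)); everything below lives in the wrapper namespace `Fermat.Agent.GE8.P3B`. -/
set_option linter.dupNamespace false
open Fermat Fermat.Agent Fermat.Agent.GB Fermat.Agent.GB.B3 Fermat.Agent.GB.B3.CycInst Fermat.Agent.GB.B3.CycPlug Fermat.Agent.GB.B3.EisGamma0 Fermat.Agent.GB.B3.FreeCyclic Fermat.Agent.GB.B3.HeckeAct Fermat.Agent.GB.B3.HeckeActH Fermat.Agent.GB.B3.RealLevel Fermat.Agent.GB.B3.TWLevel Fermat.Agent.GM Fermat.Agent.GM.B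

namespace Fermat.Agent.GE8.P3B

/-!
GATE-B / B3 (helper95): **the concrete step of the Taylor–Wiles tower**, in the uniform shape
`Γ_H = GammaH θ ≤ Γ_{H''} = GammaH (π ∘ θ) ≤ Γ₀(N)` of helper2's `KerSys2`/`GammaH2`
(`θ : (ZMod N)ˣ →* Δ`, `π : Δ →* Δ''` with `ker π` cyclic of order `p ^ n`).

* `finiteIndex_GammaH`, `neg_one_mem_GammaH`;
* `diaLin O θ d` : the `O`-linear diamond operator of `d ∈ Γ₀(N)` on `Hom(Γ_H, O)`; `diaLin_pow`,
  `diaLin_comm`;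
* `exists_step_inst` : `StepAbs.exists_step` instantiated by `CycPlug.cycStepKKSL`
  (`GB/B3/CycPlug2.lean`),
  helper80's `HeckeActH.actH` (+ `coresHH_act`, `diaH_act`) and helper2's `coresHH_diaH`:
  a level realised in `Hom(Γ_{H''}, O)_𝔪` with diamonds `⟨d i⟩` gives a level realised in
  `Hom(Γ_H, O)_𝔪` with diamonds `⟨d0⟩, ⟨d i⟩`.
-/

set_option autoImplicit false
set_option linter.unusedSectionVars false
set_option linter.style.haveILetI false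

open scoped MatrixGroups
open CongruenceSubgroup

namespace GB.B3.StepInst

open GM.B GB.B3 GB.B3.EisGamma0
  GB.B3.CycInst GB.B3.CycPlug GB.B3.FreeCyclic
  GB.B3.TWLevel GB.B3.RealLevel GB.B3.HeckeActH
  GB.B3.HeckeAct

variable {N : ℕ}

section Groups

variable {Δ : Type} [CommGroup Δ] (θ : (ZMod N)ˣ →* Δ)

theorem Gamma_le_GammaH : Gamma N ≤ GamH.GammaH θ := by
  intro g hg
  obtain ⟨-, -, h10, h11⟩ := Gamma_mem.1 hg
  have hg0 : g ∈ Gamma0 N := Gamma0_mem.2 h10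
  refine (GamH.mem_GammaH_iff θ g).2 ⟨hg0, ?_⟩
  have h1 : dUnits N ⟨g, hg0⟩ = 1 := by
    apply Units.ext
    rw [coe_dUnits, Units.val_one]
    exact h11
  rw [h1, map_one]

/-- `Γ_H` has finite index in `SL(2,ℤ)` -/
theorem finiteIndex_GammaH [NeZero N] : (GamH.GammaH θ).FiniteIndex :=
  IsCongruenceSubgroup.finiteIndex ⟨N, NeZero.ne N, Gamma_le_GammaH θ⟩

theorem neg_one_mem_Gamma0 : (-1 : SL(2, ℤ)) ∈ Gamma0 N := by
  rw [Gamma0_mem]
  simp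

theorem dUnits_neg_one : dUnits N ⟨-1, neg_one_mem_Gamma0⟩ = -1 := by
  apply Units.ext
  rw [coe_dUnits, Units.val_neg, Units.val_one]
  simp [GM.EisClass.dN]

/-- `-1 ∈ Γ_H` when `θ (-1) = 1` -/
theorem neg_one_mem_GammaH (hneg : θ (-1) = 1) : (-1 : SL(2, ℤ)) ∈ GamH.GammaH θ :=
  (GamH.mem_GammaH_iff θ _).2 ⟨neg_one_mem_Gamma0, by rw [dUnits_neg_one, hneg]⟩

end Groups

section Dia

variable (O : Type) [CommRing O] {Δ : Type} [CommGroup Δ] (θ : (ZMod N)ˣ →* Δ)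

/-- the diamond operator of `d ∈ Γ₀(N)` on `Hom(Γ_H, O)`, as an `O`-linear map -/
noncomputable def diaLin (d : Gamma0 N) : Module.End O (Additive (GamH.GammaH θ) →+ O) :=
  opLin O (diaK embR (chi θ) d)

theorem diaLin_apply (d : Gamma0 N) (ψ : Additive (GamH.GammaH θ) →+ O) :
    diaLin O θ d ψ = GamH.diaH θ O d ψ := rfl

theorem diaLin_pow (d : Gamma0 N) (n : ℕ) (hd : chi θ (d ^ n) = 1) : diaLin O θ d ^ n = 1 := by
  refine LinearMap.ext fun ψ => ?_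
  rw [Module.End.one_apply]
  have h := dia_pow (emb := embR) (chi θ) O d n ψ
  exact h.trans (dia_of_ker (chi θ) _ hd ψ)

theorem diaLin_comm (d d' : Gamma0 N) :
    diaLin O θ d * diaLin O θ d' = diaLin O θ d' * diaLin O θ d := by
  refine LinearMap.ext fun ψ => ?_
  rw [Module.End.mul_apply, Module.End.mul_apply, diaLin_apply, diaLin_apply, diaLin_apply,
    diaLin_apply]
  exact GamH.diaH_comm θ d d' ψ

end Dia

section Main

variable [NeZero N] (Sy : Symbols N)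
variable {O : Type} [CommRing O] [IsDomain O] [IsPrincipalIdealRing O] [IsLocalRing O]
  [IsAdicComplete (IsLocalRing.maximalIdeal O) O] [Module.IsTorsionFree ℤ O]
variable (𝔪 : Ideal (Sy.𝕋 O)) [𝔪.IsMaximal]
variable {M0 : Type} [AddCommGroup M0] [Module O M0] {act0 : Sy.𝕋 O →ₐ[O] Module.End O M0}
variable {k : ℕ} {Nk : Fin k → ℕ} (F : FreeLevel O (Sy.𝕋 O) M0 act0 k Nk)
variable {Δ Δ'' : Type} [CommGroup Δ] [CommGroup Δ''] (θ : (ZMod N)ˣ →* Δ) (π : Δ →* Δ'')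
  [Fintype π.ker]

/-- the non-Eisenstein element `T_ℓ - (ℓ + 1)` of the algebra of symbols -/
noncomputable def tauOf (O : Type) [CommRing O] (s0 : Sy.ι₁) : Sy.𝕋 O :=
  MvPolynomial.X (Sum.inl s0) - MvPolynomial.C (((Sy.ℓ s0 + 1 : ℕ) : O))

/-- **the concrete step of the tower** -/
theorem exists_step_inst
    (rep : π.ker → Gamma0 N) (hrep : ∀ δ : π.ker, chi θ (rep δ) = (δ : Δ))
    (d0 : Gamma0 N) (hd0 : chi θ d0 ∈ π.ker)
    (ϖ : O) (hϖ0 : ϖ ≠ 0) (hmax : IsLocalRing.maximalIdeal O = Ideal.span {ϖ})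
    (p n : ℕ) (hp : p.Prime) (hpϖ : (p : O) ∈ Ideal.span {ϖ}) (hq : ((p ^ n : ℕ) : O) ≠ 0)
    (hord : orderOf (chi θ d0) = p ^ n) (hcard : Fintype.card π.ker = p ^ n)
    (hneg : θ (-1) = 1) (h2 : ¬ 2 ∣ p ^ n) (h3 : Ok3A Sy 𝔪 p)
    (s0 : Sy.ι₁) (hτ : tauOf Sy O s0 ∉ 𝔪)
    (d : Fin k → Gamma0 N) (hdpow : ∀ i, chi θ (d i ^ Nk i) = 1)
    (R : Realizes F (actH Sy O (π.comp θ)) 𝔪 (fun i => diaLin O (π.comp θ) (d i))) :
    ∃ F' : FreeLevel O (Sy.𝕋 O) M0 act0 (k + 1) (Fin.cons (p ^ n) Nk : Fin (k + 1) → ℕ),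
      Nonempty (Realizes F' (actH Sy O θ) 𝔪
        (fun i => diaLin O θ ((Fin.cons d0 d : Fin (k + 1) → Gamma0 N) i))) :=
  StepGen.exists_step_inst_gen Sy 𝔪 F θ π rep hrep d0 hd0 ϖ hϖ0 hmax p n hp hpϖ hq hord hcard hneg h2
    h3 s0 hτ d hdpow R

/-- **the concrete step of the tower**, the section of `χ_θ` over the cyclic group `ker π` built
from the generator `d0` -/
theorem exists_step_inst'
    (d0 : Gamma0 N) (hd0 : chi θ d0 ∈ π.ker)
    (ϖ : O) (hϖ0 : ϖ ≠ 0) (hmax : IsLocalRing.maximalIdeal O = Ideal.span {ϖ})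
    (p n : ℕ) (hp : p.Prime) (hpϖ : (p : O) ∈ Ideal.span {ϖ}) (hq : ((p ^ n : ℕ) : O) ≠ 0)
    (hord : orderOf (chi θ d0) = p ^ n) (hcard : Fintype.card π.ker = p ^ n)
    (hneg : θ (-1) = 1) (h2 : ¬ 2 ∣ p ^ n) (h3 : Ok3A Sy 𝔪 p)
    (s0 : Sy.ι₁) (hτ : tauOf Sy O s0 ∉ 𝔪)
    (d : Fin k → Gamma0 N) (hdpow : ∀ i, chi θ (d i ^ Nk i) = 1)
    (R : Realizes F (actH Sy O (π.comp θ)) 𝔪 (fun i => diaLin O (π.comp θ) (d i))) :
    ∃ F' : FreeLevel O (Sy.𝕋 O) M0 act0 (k + 1) (Fin.cons (p ^ n) Nk : Fin (k + 1) → ℕ),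
      Nonempty (Realizes F' (actH Sy O θ) 𝔪
        (fun i => diaLin O θ ((Fin.cons d0 d : Fin (k + 1) → Gamma0 N) i))) := by
  have hb := pow_bijectiveKK (chi θ) π (p ^ n) d0 hd0 hord hcard
  let rep : π.ker → Gamma0 N := fun δ => d0 ^ ((hb.2 δ).choose : ℕ)
  have hrep : ∀ δ : π.ker, chi θ (rep δ) = (δ : Δ) := by
    intro δ
    have h := (hb.2 δ).choose_spec
    show chi θ (d0 ^ ((hb.2 δ).choose : ℕ)) = (δ : Δ)
    rw [map_pow]
    exact congrArg Subtype.val h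
  exact exists_step_inst Sy 𝔪 F θ π rep hrep d0 hd0 ϖ hϖ0 hmax p n hp hpϖ hq hord hcard hneg h2 h3
    s0 hτ d hdpow R

end Main

end GB.B3.StepInst
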