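/-
GATE-B / S43, B3 ↔ B4 seam (helper74): **the levels of the Taylor–Wiles tower are `𝔪`-primary for
the Hecke symbols** — the input `TQ.IsPrimary _ 𝔪` of `GB/B3/TQofTW.exists_TQ_of_TW` and of
`GB/B4/Datum/TQFields.locHyp_of_isPrimary` (⟹ `ImageRing.LocHyp`, i.e. `T_Q` is local, complete,
finite free, with NOTHING asked from the Galois side).

* `isPrimary_of_realizes` : a level realised (`RealLevel.Realizes`) as the `𝔪`-primary part of a
  finite ambient module is `𝔪`-primary;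
* `isPrimary_quotLevelMulti`, `isPrimary_level1M` : so are its `χ`-quotients (helper24
  `ChiLevelMulti`);
* `isPrimary_bigLevel`, `isPrimary_tw_L1`, `isPrimary_tw_Lχ` : helper95's named objects
  `Plug.bigLevel`, `Plug.tw`.
-/
import Mathlib
import Fermat.Agent.GE8.P3B.GB.B3.Plug
import Fermat.Agent.GB.B3.LocBridge
import Fermat.Agent.GB.B3.TQ
import Fermat.Agent.GB.B3.TQofTW
import Fermat.Agent.GE8.P3B.StepGen
import Fermat.Agent.GE8.P3B.Ok3W

/- TWIN (helper6 B4 generator; conventions of helper24 / helper86) of `Fermat.Agent.GB.B3.PlugPrimary` with `p ≠ 3` relaxed to `Ok3A Sy 𝔪 p` / `Ok3W p W` (RISK-5 fix (B), step B4); everything below lives in the wrapper namespace `Fermat.Agent.GE8.P3B`. -/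
set_option linter.dupNamespace false
open Fermat Fermat.Agent Fermat.Agent.GB Fermat.Agent.GB.B3 Fermat.Agent.GB.B3.ChiLevelMulti Fermat.Agent.GB.B3.HeckeActH Fermat.Agent.GB.B3.Loc Fermat.Agent.GB.B3.LocBridge Fermat.Agent.GB.B3.RealLevel Fermat.Agent.GB.B3.TQ Fermat.Agent.GB.B3.TWChars Fermat.Agent.GB.B3.TWLevel

namespace Fermat.Agent.GE8.P3B

set_option autoImplicit false
set_option linter.style.haveILetI false
set_option linter.unusedSectionVars false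

open scoped MatrixGroups
open CongruenceSubgroup

namespace GB.B3.PlugPrimary

open GB.B3.TWLevel GB.B3.RealLevel GB.B3.Loc
  GB.B3.LocBridge GB.B3.TQ GB.B3.ChiLevelMulti

/-! ### the abstract statement -/

section Abstract

variable {O : Type} [CommRing O] [IsLocalRing O] [IsNoetherianRing O]
  [IsAdicComplete (IsLocalRing.maximalIdeal O) O]
variable {A : Type} [CommRing A] [Algebra O A] {𝔪 : Ideal A} [𝔪.IsMaximal]
variable {M0 : Type} [AddCommGroup M0] [Module O M0] {act0 : A →ₐ[O] Module.End O M0}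
variable {k : ℕ} {N : Fin k → ℕ} {F : FreeLevel O A M0 act0 k N}
variable {L : Type} [AddCommGroup L] [Module O L] [Module.Finite O L]

/-- **a level realised as the `𝔪`-primary part of a finite ambient Hecke module is `𝔪`-primary**:
every symbol `s ∉ 𝔪` acts surjectively (hence bijectively) on it -/
theorem isPrimary_of_realizes {actL : A →ₐ[O] Module.End O L} {E : Fin k → Module.End O L}
    (R : Realizes F actL 𝔪 E) : IsPrimary F.act 𝔪 := by
  intro s hs x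
  letI : Module A L := moduleOfAct actL
  haveI : IsScalarTower O A L := isScalarTower_moduleOfAct actL
  have hx : R.ι x ∈ locPart 𝔪 L :=
    (isLoc_iff_mem_locPart actL (fun _ _ => rfl) 𝔪 _).1 ((R.range _).1 ⟨x, rfl⟩)
  obtain ⟨y, hy⟩ := (bijective_smul_locPart O (L := L) 𝔪 hs).2 ⟨R.ι x, hx⟩
  have hy' : s • (y : L) = R.ι x := congrArg Subtype.val hy
  obtain ⟨x', hx'⟩ := (R.range _).2
    ((isLoc_iff_mem_locPart actL (fun _ _ => rfl) 𝔪 _).2 y.2)
  refine ⟨x', R.inj ?_⟩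
  rw [R.ι_act, hx']
  exact hy'

end Abstract

/-! ### the `χ`-quotients -/

section Quot

variable {O : Type} [CommRing O] {𝕋 : Type} [CommRing 𝕋] [Algebra O 𝕋] {𝔪 : Ideal 𝕋}
variable {M0 : Type} [AddCommGroup M0] [Module O M0] {act0 : 𝕋 →ₐ[O] Module.End O M0}
variable {s k : ℕ} {N : Fin (s + k) → ℕ}
variable {M0c : Type} [AddCommGroup M0c] [Module O M0c]

theorem isPrimary_quotLevelMulti (B : FreeLevel O 𝕋 M0 act0 (s + k) N) (hB : IsPrimary B.act 𝔪)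
    (hN : ∀ i, 0 < N i) (c : Fin s → O) (hc : ∀ v, c v ^ N (Fin.castAdd k v) = 1)
    (act0c : 𝕋 →ₐ[O] Module.End O M0c) (πc : B.M →ₗ[O] M0c)
    (hsurj : Function.Surjective πc) (hker : ∀ x, πc x = 0 ↔ x ∈ baseKerM B c)
    (hact : ∀ t x, πc (B.act t x) = act0c t (πc x)) :
    IsPrimary (quotLevelMulti B hN c hc act0c πc hsurj hker hact).act 𝔪 :=
  hB.of_surjective (Submodule.mkQ (famRange (frD B) c)) (fmk_surjective (frD B) c)
    (fun _ _ => rfl)

theorem isPrimary_level1M (B : FreeLevel O 𝕋 M0 act0 (s + k) N) (hB : IsPrimary B.act 𝔪)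
    (hN : ∀ i, 0 < N i) : IsPrimary (level1M B hN).act 𝔪 :=
  hB.of_surjective (Submodule.mkQ (famRange (frD B) (fun _ => (1 : O))))
    (fmk_surjective (frD B) (fun _ => (1 : O))) (fun _ _ => rfl)

theorem isPrimary_twLevelDataMultiSelf (B : FreeLevel O 𝕋 M0 act0 (s + k) N)
    (hB : IsPrimary B.act 𝔪) (hN : ∀ i, 0 < N i) (ϖ : O) (c : Fin s → O)
    (hc : ∀ v, c v ^ N (Fin.castAdd k v) = 1) (hc1 : ∀ v, (1 : O) - c v ∈ Ideal.span {ϖ}) :
    IsPrimary (twLevelDataMultiSelf B hN ϖ c hc hc1).L1.act 𝔪 ∧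
      IsPrimary (twLevelDataMultiSelf B hN ϖ c hc hc1).Lχ.act 𝔪 :=
  ⟨isPrimary_level1M B hB hN,
    hB.of_surjective (Submodule.mkQ (famRange (frD B) c)) (fmk_surjective (frD B) c)
      (fun _ _ => rfl)⟩

end Quot

/-! ### helper95's named objects -/

section Named

open GB.B3.HeckeActH GB.B3.StepInst GB.B3.Tower
  GB.B3.Final GB.B3.TWChars GB.B3.FinalTW
  GB.B3.Plug

variable {N p : ℕ} [NeZero N] [hpF : Fact p.Prime] {K : ℕ} {r e N' : ℕ → ℕ}
variable (Sy : Symbols N)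
variable {O : Type} [CommRing O] [IsDomain O] [IsPrincipalIdealRing O] [IsLocalRing O]
  [IsAdicComplete (IsLocalRing.maximalIdeal O) O] [Module.IsTorsionFree ℤ O]
variable (𝔪 : Ideal (Sy.𝕋 O)) [𝔪.IsMaximal]
variable (H : PrimeData N p K r e N') {ϖ : O} {s0 : Sy.ι₁} (h : Hyp Sy 𝔪 p ϖ s0)

/-- **the big level `P_Q` is `𝔪`-primary** -/
theorem isPrimary_bigLevel (j : ℕ) : IsPrimary (bigLevel Sy 𝔪 H h j).act 𝔪 := by
  haveI : (GamH.GammaH (Theta (Δs p e) H.psi j)).FiniteIndex := finiteIndex_GammaH _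
  haveI : Module.Finite O (Additive (GamH.GammaH (Theta (Δs p e) H.psi j)) →+ O) :=
    HomFree.homFinite_SL2Z _ O
  exact isPrimary_of_realizes (bigReal Sy 𝔪 H h j)

variable (s k : ℕ) (c : Fin s → O) (hc : ∀ v : Fin s, c v ^ p ^ e (s + k - 1 - v) = 1)
  (hc1 : ∀ v, (1 : O) - c v ∈ Ideal.span {ϖ})

/-- **`M¹_Q` is `𝔪`-primary** -/
theorem isPrimary_tw_L1 : IsPrimary (tw Sy 𝔪 H h s k c hc hc1).L1.act 𝔪 :=
  (isPrimary_twLevelDataMultiSelf (bigLevel Sy 𝔪 H h (s + k)) (isPrimary_bigLevel Sy 𝔪 H h (s + k))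
    (Nfun_pos hpF.out e (s + k)) ϖ c (hc_Nfun s k c hc) hc1).1

/-- **`M^χ_Q` is `𝔪`-primary** -/
theorem isPrimary_tw_Lχ : IsPrimary (tw Sy 𝔪 H h s k c hc hc1).Lχ.act 𝔪 :=
  (isPrimary_twLevelDataMultiSelf (bigLevel Sy 𝔪 H h (s + k)) (isPrimary_bigLevel Sy 𝔪 H h (s + k))
    (Nfun_pos hpF.out e (s + k)) ϖ c (hc_Nfun s k c hc) hc1).2

/-- **plug-test `Plug.tw` ⟶ `TQofTW.exists_TQ_of_TW`**: the Hecke algebra of the symbols on
`M¹_Q ⊕ M^χ_Q` (local, noetherian, complete, finite over `O`) with the `TWInput` fields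
`a₁ a₂ a₁_D a₂_D a_U`, for helper95's named `TWLevelData`, as soon as `M¹_Q ≠ 0` -/
theorem exists_TQ_tw [Nontrivial (tw Sy 𝔪 H h s k c hc hc1).L1.M] :
    ∃ (T : Type) (_ : CommRing T) (_ : Algebra O T) (_ : IsLocalRing T) (_ : IsNoetherianRing T)
      (_ : Module.Finite O T) (_ : IsLocalHom (algebraMap O T))
      (_ : IsAdicComplete (IsLocalRing.maximalIdeal T) T)
      (a1 : T →ₐ[O] Module.End O (tw Sy 𝔪 H h s k c hc hc1).L1.M)
      (aχ : T →ₐ[O] Module.End O (tw Sy 𝔪 H h s k c hc hc1).Lχ.M) (π : Sy.𝕋 O →ₐ[O] T),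
      Function.Surjective π ∧ (∀ t, a1 (π t) = (tw Sy 𝔪 H h s k c hc hc1).L1.act t) ∧
      (∀ t, aχ (π t) = (tw Sy 𝔪 H h s k c hc hc1).Lχ.act t) ∧
      (∀ t : Sy.𝕋 O, π t ∈ IsLocalRing.maximalIdeal T ↔ t ∈ 𝔪) ∧
      (∀ t i, a1 t * (tw Sy 𝔪 H h s k c hc hc1).L1.D i =
        (tw Sy 𝔪 H h s k c hc hc1).L1.D i * a1 t) ∧
      (∀ t i, aχ t * (tw Sy 𝔪 H h s k c hc hc1).Lχ.D i =
        (tw Sy 𝔪 H h s k c hc hc1).Lχ.D i * aχ t) ∧
      (∀ t, a1 t = 0 → aχ t = 0 → t = 0) ∧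
      (∀ (t : T) (x : (tw Sy 𝔪 H h s k c hc hc1).L1.M) (y : (tw Sy 𝔪 H h s k c hc hc1).Lχ.M),
        (tw Sy 𝔪 H h s k c hc hc1).U (Submodule.Quotient.mk x) = Submodule.Quotient.mk y →
          (tw Sy 𝔪 H h s k c hc hc1).U (Submodule.Quotient.mk (a1 t x)) =
            Submodule.Quotient.mk (aχ t y)) := by
  haveI : ∀ i : Fin k, NeZero (Nfun p e (s + k) (Fin.natAdd s i)) := fun i =>
    ⟨(Nfun_pos hpF.out e (s + k) (Fin.natAdd s i)).ne'⟩
  exact GB.B3.TQofTW.exists_TQ_of_TW O (tw Sy 𝔪 H h s k c hc hc1) 𝔪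
    (isPrimary_tw_L1 Sy 𝔪 H h s k c hc hc1) (isPrimary_tw_Lχ Sy 𝔪 H h s k c hc hc1)

end Named

end GB.B3.PlugPrimary

end Fermat.Agent.GE8.P3B
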