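import Mathlib
import Fermat.Agent.GE8.P3B.GB.B3.PlugD
import Fermat.Agent.GE8.P3B.StepGen

/- TWIN (helper86, from the GE8/P3 twin of helper24) of `Fermat.Agent.GB.B3.PlugZero` with `p ≠ 3` relaxed to `Ok3A Sy 𝔪 p` (RISK-5 fix (B)); everything below lives in the wrapper namespace `Fermat.Agent.GE8.P3B`. -/
set_option linter.dupNamespace false
open Fermat Fermat.Agent Fermat.Agent.GB Fermat.Agent.GB.B3 Fermat.Agent.GB.B3.EisGamma0 Fermat.Agent.GB.B3.HeckeActH Fermat.Agent.GB.B3.RealLevel Fermat.Agent.GB.B3.TWChars Fermat.Agent.GB.B3.TWLevel Fermat.Agent.GB.B8 Fermat.Agent.GB.B8.LevelGen Fermat.Agent.GB.B8.LevelIter Fermat.Agent.GM Fermat.Agent.GM.B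

namespace Fermat.Agent.GE8.P3B

/-!
GATE-B / B3 (helper95): **the tower over a ZERO base** (helper32 5850 (L1)).

The B3 tower (`Tower.exists_tower`, `Plug.bigLevel`) never uses `0 < d`: it runs over any base.  If
the `𝔪`-primary part of `Hom(Γ₀(N), O)` is zero, every level of the tower has rank `d = 0` over
`O[Δ]`, hence is zero, hence the `𝔪`-primary part of `Hom(Γ_H, O)` is zero for EVERY `Γ_H` of the
tower:

* `eq_zero_of_d_eq_zero` : a `FreeLevel` of rank `0` is the zero module;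
* `isLoc_eq_zero_of_realizes` : … so the primary part it realises is zero;
* `isLoc_eq_zero` : `Hom(Γ₀(N), O)_𝔪 = 0 ⟹ Hom(GammaH (Theta j), O)_𝔪 = 0` for all `j`;
* `isLoc_eq_zero_of_base` : the same from the vanishing at helper49's base level `M`
  (`N = M ∏_{s ∈ Q} pr s`, Taylor–Wiles conditions at the symbols of `Q`).
-/

set_option autoImplicit false
set_option linter.unusedSectionVars false
set_option linter.style.haveILetI false

open scoped MatrixGroups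
open CongruenceSubgroup

namespace GB.B3.PlugZero

open MvPolynomial
open GM.B GB.B3 GB.B3.EisGamma0
  GB.B3.TWLevel GB.B3.RealLevel
  GB.B3.HeckeActH GB.B3.TWChars GB.B3.FinalTW
  GB.B3.Tower GB.B3.StepInst
  GB.B8.LevelIter GB.B8.LevelGen

section Abstract

variable {O : Type} [CommRing O] {A : Type} [CommRing A] [Algebra O A]
  {M0 : Type} [AddCommGroup M0] [Module O M0] {act0 : A →ₐ[O] Module.End O M0}
  {k : ℕ} {N : Fin k → ℕ}

/-- a level of rank `0` over `O[Δ]` is zero -/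
theorem eq_zero_of_d_eq_zero (F : FreeLevel O A M0 act0 k N) (h : F.d = 0) (x : F.M) : x = 0 := by
  haveI : IsEmpty ((∀ i : Fin k, Fin (N i)) × Fin F.d) :=
    ⟨fun a => (Fin.cast h a.2).elim0⟩
  rw [← F.basis.sum_repr x]
  exact Finset.sum_eq_zero fun a _ => (IsEmpty.false a).elim

/-- … hence so is the primary part it realises -/
theorem isLoc_eq_zero_of_realizes (F : FreeLevel O A M0 act0 k N)
    {L : Type} [AddCommGroup L] [Module O L] {actL : A →ₐ[O] Module.End O L} {𝔪 : Ideal A}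
    {E : Fin k → Module.End O L} (R : Realizes F actL 𝔪 E) (h : F.d = 0)
    (x : L) (hx : IsLoc actL 𝔪 x) : x = 0 := by
  obtain ⟨m, rfl⟩ := (R.range x).mpr hx
  rw [eq_zero_of_d_eq_zero F h m, map_zero]

end Abstract

section TW

variable {N p : ℕ} [NeZero N] [hpF : Fact p.Prime] {K : ℕ} {r e N' : ℕ → ℕ}
variable (Sy : Symbols N)
variable {O : Type} [CommRing O] [IsDomain O] [IsPrincipalIdealRing O] [IsLocalRing O]
  [IsAdicComplete (IsLocalRing.maximalIdeal O) O] [Module.IsTorsionFree ℤ O]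
variable (𝔪 : Ideal (Sy.𝕋 O)) [𝔪.IsMaximal]
variable (H : PrimeData N p K r e N') {ϖ : O} {s0 : Sy.ι₁} (h : Plug.Hyp Sy 𝔪 p ϖ s0)

include h in
/-- **(L1)**: if `Hom(Γ₀(N), O)_𝔪 = 0` then `Hom(Γ_H, O)_𝔪 = 0` for every `Γ_H` of the tower -/
theorem isLoc_eq_zero
    (hbase : ∀ y : Additive (Gamma0 N) →+ O, IsLoc (HeckeActH.act0 Sy O) 𝔪 y → y = 0) (j : ℕ)
    (x : Additive (GamH.GammaH (Theta (Δs p e) H.psi j)) →+ O)
    (hx : IsLoc (actH Sy O (Theta (Δs p e) H.psi j)) 𝔪 x) : x = 0 := by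
  refine isLoc_eq_zero_of_realizes (Plug.bigLevel Sy 𝔪 H h j) (Plug.bigReal Sy 𝔪 H h j) ?_ x hx
  rw [Plug.rank_eq_gamma0]
  have hbot : Base.locSub (HeckeActH.act0 Sy O) 𝔪 = ⊥ :=
    (Submodule.eq_bot_iff _).2 fun y hy => hbase y hy
  rw [hbot]
  exact finrank_bot O _

variable {κ : Type} [Field κ] [Algebra O κ]
variable [DecidableEq Sy.ι₁] [DecidableEq Sy.ι₂]

include h in
/-- **(L1) from the base level** `M` of helper49's level lowering at the Taylor–Wiles primes -/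
theorem isLoc_eq_zero_of_base (hℓ : Function.Injective Sy.ℓ) (hr : Function.Injective Sy.r)
    (hsurj : Function.Surjective (algebraMap O κ)) (M : ℕ) [NeZero M]
    (lamBase lamTop : Sy.𝕋 O →ₐ[O] κ) (α β : Sy.ι₁ ⊕ Sy.ι₂ → O) (Q : Finset (Sy.ι₁ ⊕ Sy.ι₂))
    (hN : N = M * ∏ s ∈ Q, prSy Sy s) (hQM : ∀ s ∈ Q, ¬ prSy Sy s ∣ M)
    (hTW : ∀ s ∈ Q, TWCond (prSy Sy) lamBase lamTop α β s)
    (haway : ∀ s, s ∉ Q → lamTop (X s) = lamBase (X s))
    (h𝔪 : 𝔪 = RingHom.ker (lamTop : Sy.𝕋 O →+* κ))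
    (hbase : ∀ y : Additive (Gamma0 M) →+ O,
      IsLoc (actN O (prSy Sy) (prSy_prime Sy) M) (RingHom.ker (lamBase : Sy.𝕋 O →+* κ)) y → y = 0)
    (j : ℕ) (x : Additive (GamH.GammaH (Theta (Δs p e) H.psi j)) →+ O)
    (hx : IsLoc (actH Sy O (Theta (Δs p e) H.psi j)) 𝔪 x) : x = 0 := by
  refine isLoc_eq_zero_of_realizes (Plug.bigLevel Sy 𝔪 H h j) (Plug.bigReal Sy 𝔪 H h j) ?_ x hx
  rw [Plug.rank_eq_gamma0,
    PlugD.finrank_locSub_eq Sy hℓ hr hsurj M lamBase lamTop α β Q hN hQM hTW haway 𝔪 h𝔪]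
  have hbot : GB.B8.LevelStage.locSub
      (actN O (prSy Sy) (prSy_prime Sy) M) (RingHom.ker (lamBase : Sy.𝕋 O →+* κ)) = ⊥ :=
    (Submodule.eq_bot_iff _).2 fun y hy => hbase y hy
  rw [hbot]
  exact finrank_bot O _

end TW

end GB.B3.PlugZero
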