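import Mathlib
import Fermat.Agent.GE8.P3B.GB.B3.LocTransportInstD
import Fermat.Agent.GE8.P3B.StepGen

/- TWIN (helper86, from the GE8/P3 twin of helper24) of `Fermat.Agent.GB.B3.SeamQ` with `p ≠ 3` relaxed to `Ok3A Sy 𝔪 p` (RISK-5 fix (B)); everything below lives in the wrapper namespace `Fermat.Agent.GE8.P3B`. -/
set_option linter.dupNamespace false
open Fermat Fermat.Agent Fermat.Agent.GB Fermat.Agent.GB.B3 Fermat.Agent.GB.B3.EisGamma0 Fermat.Agent.GB.B3.HeckeActH Fermat.Agent.GB.B3.RealLevel Fermat.Agent.GB.B3.TWChars Fermat.Agent.GB.B3.TWLevel Fermat.Agent.GB.B7 Fermat.Agent.GB.B7.UqEquiv Fermat.Agent.GB.B7.UqSq Fermat.Agent.GM Fermat.Agent.GM.B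

namespace Fermat.Agent.GE8.P3B

/-!
GATE-B / B3 (helper95): **the seam B3 ↔ B7 at the framed prime** (helper52, board 6264 §4).

For B7 the big prime data `H : PrimeData (N * q) p K r e N''` live at level `N q` and contain the
framed prime `q` itself (step `k`, `e k ≥ 1`), so NO prime data at level `N` with the same `K r e`
exist (`e_out`).  The stage `Theta (Δs p e) H.psi k` (Taylor–Wiles characters only, `r i ∣ N` for
`i < k`) is nevertheless inflated from level `N`, and the tower at level `N` only needs the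
arithmetic of the FIRST `k` characters:

* `exists_tower_le`, `isLoc_eq_zero_le` : `Tower.exists_tower` and `PlugZero.isLoc_eq_zero` with the
  hypotheses `hcard hord hoff hneg` only for the indices `< J`, for the stages `j ≤ J`;
* `psiLow H k hk hrk i : (ZMod N)ˣ →* Δs p e i` : the characters at level `N` (same targets, no
  casts), `psi_eq_infl_low`, `Theta_eq_thQ_low : Theta (Δs p e) H.psi j = thQ (Theta … psiLow j) q`
  for `j ≤ k`; `thetaLow H k hk hrk := Theta (Δs p e) (psiLow …) k`;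
* `exists_ddLow`, `psiLow_neg_one` and the arithmetic of the first `k` characters at level `N`;
* `thetaLow_zero` : `Hom(Γ₀(N), O)_𝔪 = 0 ⟹ Hom(Γ_H(thetaLow), O)_𝔪 = 0`;
* **`exists_thetaLow`** : `∃ θ', Theta (Δs p e) H.psi k = thQ θ' q ∧ (hzero for θ')` — the binders
  `θ' hθ hzero` of `GB/B7/UqOne.exists_tw₁` / `exists_tw₁_of_tw` / `UH_UH_of_zero` verbatim;
* `hyp_restrict` : `Plug.Hyp Sy 𝔪 p ϖ s0 → Plug.Hyp (restrict Sy hrN) 𝔪 p ϖ s0`;
* `UH_UH_of_tower_low`, `new_of_tower_low` : `U_q² = ⟨d_q⟩` and `coresq = coresDq = 0` on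
  `Hom(Γ_H(Theta (Δs p e) H.psi k), O)_𝔪` for the BIG prime data over a zero base at level `N`.
-/

set_option autoImplicit false
set_option linter.unusedSectionVars false
set_option linter.style.haveILetI false

open scoped MatrixGroups
open CongruenceSubgroup

namespace GB.B3.SeamQ

open GM.B GB.B3 GB.B3.EisGamma0
  GB.B3.TWLevel GB.B3.RealLevel GB.B3.HeckeActH
  GB.B3.StepInst GB.B3.Tower GB.B3.TWChars
  GB.B3.FinalTW GB.B3.LocTransport GB.B7.UqSq
  GB.B7.UqEquiv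

/-! ### the tower with the arithmetic hypotheses in a range -/

section Bounded

variable {N : ℕ} [NeZero N] (Δs : ℕ → Type) [∀ i, CommGroup (Δs i)] [∀ i, Fintype (Δs i)]
  (ψ : ∀ i, (ZMod N)ˣ →* Δs i)
variable (Sy : Symbols N)
variable {O : Type} [CommRing O] [IsDomain O] [IsPrincipalIdealRing O] [IsLocalRing O]
  [IsAdicComplete (IsLocalRing.maximalIdeal O) O] [Module.IsTorsionFree ℤ O]
variable (𝔪 : Ideal (Sy.𝕋 O)) [𝔪.IsMaximal]
variable {M0 : Type} [AddCommGroup M0] [Module O M0] {act0 : Sy.𝕋 O →ₐ[O] Module.End O M0}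

/-- **the Taylor–Wiles tower up to stage `J`**, the arithmetic only for the indices `< J` -/
theorem exists_tower_le (J : ℕ)
    (ϖ : O) (hϖ0 : ϖ ≠ 0) (hmax : IsLocalRing.maximalIdeal O = Ideal.span {ϖ})
    (p : ℕ) (hp : p.Prime) (hpϖ : (p : O) ∈ Ideal.span {ϖ}) (hp0 : (p : O) ≠ 0)
    (hp2 : p ≠ 2) (hp3 : Ok3A Sy 𝔪 p) (n : ℕ → ℕ) (dd : ℕ → Gamma0 N)
    (hcard : ∀ i, i < J → Fintype.card (Δs i) = p ^ n i)
    (hord : ∀ i, i < J → orderOf (ψ i (dUnits N (dd i))) = p ^ n i)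
    (hoff : ∀ i j, i < J → j < J → i ≠ j → ψ i (dUnits N (dd j)) = 1)
    (hneg : ∀ i, i < J → ψ i (-1) = 1)
    (s0 : Sy.ι₁) (hτ : tauOf Sy O s0 ∉ 𝔪)
    (F0 : FreeLevel O (Sy.𝕋 O) M0 act0 0 Fin.elim0)
    (R0 : Realizes F0 (actH Sy O (Theta Δs ψ 0)) 𝔪 (fun i => i.elim0)) (j : ℕ) (hj : j ≤ J) :
    ∃ F : FreeLevel O (Sy.𝕋 O) M0 act0 j (Nfun p n j),
      Nonempty (Realizes F (actH Sy O (Theta Δs ψ j)) 𝔪
        (fun i => diaLin O (Theta Δs ψ j) (dfun dd j i))) := by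
  induction j with
  | zero =>
    refine ⟨F0, ⟨?_⟩⟩
    have e : (fun i : Fin 0 => diaLin O (Theta Δs ψ 0) (dfun dd 0 i))
        = fun i => i.elim0 := Subsingleton.elim _ _
    rw [e]
    exact R0
  | succ j ih =>
    obtain ⟨F, ⟨R⟩⟩ := ih (Nat.le_of_succ_le hj)
    have hjJ : j < J := hj
    haveI : Fintype (initHom Δs j).ker := Fintype.ofEquiv (Δs j) (kerEquiv Δs j).symm
    have hcardk : Fintype.card (initHom Δs j).ker = p ^ n j := by
      rw [Fintype.card_congr (kerEquiv Δs j), hcard j hjJ]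
    have hval : ∀ (m : ℕ) (i : Fin (j + 1)),
        chi (Theta Δs ψ (j + 1)) (dd m) i = ψ i (dUnits N (dd m)) := fun m i => rfl
    have hlt : ∀ i : Fin (j + 1), (i : ℕ) < J := fun i => lt_of_lt_of_le i.2 hj
    have hd0 : chi (Theta Δs ψ (j + 1)) (dd j) ∈ (initHom Δs j).ker := by
      rw [MonoidHom.mem_ker]
      funext i
      show chi (Theta Δs ψ (j + 1)) (dd j) (Fin.castSucc i) = 1
      rw [hval]
      exact hoff _ _ (hlt _) hjJ (by rw [Fin.val_castSucc]; exact Nat.ne_of_lt i.2)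
    have hordj : orderOf (chi (Theta Δs ψ (j + 1)) (dd j)) = p ^ n j := by
      rw [← hord j hjJ]
      refine orderOf_eq_orderOf_iff.2 fun m => ?_
      constructor
      · intro h
        have h1 := congrFun h (Fin.last j)
        rw [Pi.pow_apply, hval] at h1
        exact h1
      · intro h
        funext i
        rw [Pi.pow_apply, hval, Pi.one_apply]
        refine Fin.lastCases ?_ (fun i' => ?_) i
        · exact h
        · rw [hoff _ _ (hlt _) hjJ (by rw [Fin.val_castSucc]; exact Nat.ne_of_lt i'.2), one_pow]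
    have hnegj : Theta Δs ψ (j + 1) (-1) = 1 := by
      funext i
      exact hneg i (hlt i)
    have hq : ((p ^ n j : ℕ) : O) ≠ 0 := by
      rw [Nat.cast_pow]
      exact pow_ne_zero _ hp0
    have hdpow : ∀ i : Fin j,
        chi (Theta Δs ψ (j + 1)) (dfun dd j i ^ Nfun p n j i) = 1 := by
      intro i
      rw [map_pow, dfun_apply, Nfun_apply]
      have hlt' : j - 1 - (i : ℕ) < J := lt_of_le_of_lt (Nat.sub_le _ _)
        (lt_of_le_of_lt (Nat.sub_le _ _) hjJ)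
      funext i'
      rw [Pi.pow_apply, hval, Pi.one_apply]
      by_cases h : (i' : ℕ) = j - 1 - i
      · rw [← h, ← hord _ (hlt i'), pow_orderOf_eq_one]
      · rw [hoff _ _ (hlt i') hlt' h, one_pow]
    exact exists_step_inst' Sy 𝔪 F (Theta Δs ψ (j + 1)) (initHom Δs j) (dd j) hd0 ϖ hϖ0 hmax p
      (n j) hp hpϖ hq hordj hcardk hnegj (not_dvd_prime_pow hp Nat.prime_two hp2 _)
      hp3 s0 hτ (dfun dd j) hdpow R

/-- **the tower over a ZERO base, up to stage `J`**: if `Hom(Γ₀(N), O)_𝔪 = 0` then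
`Hom(Γ_H(Theta j), O)_𝔪 = 0` for every `j ≤ J` -/
theorem isLoc_eq_zero_le (J : ℕ)
    (ϖ : O) (hϖ0 : ϖ ≠ 0) (hmax : IsLocalRing.maximalIdeal O = Ideal.span {ϖ})
    (p : ℕ) (hp : p.Prime) (hpϖ : (p : O) ∈ Ideal.span {ϖ}) (hp0 : (p : O) ≠ 0)
    (hp2 : p ≠ 2) (hp3 : Ok3A Sy 𝔪 p) (n : ℕ → ℕ) (dd : ℕ → Gamma0 N)
    (hcard : ∀ i, i < J → Fintype.card (Δs i) = p ^ n i)
    (hord : ∀ i, i < J → orderOf (ψ i (dUnits N (dd i))) = p ^ n i)
    (hoff : ∀ i j, i < J → j < J → i ≠ j → ψ i (dUnits N (dd j)) = 1)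
    (hneg : ∀ i, i < J → ψ i (-1) = 1)
    (s0 : Sy.ι₁) (hτ : tauOf Sy O s0 ∉ 𝔪)
    (hbase : ∀ y : Additive (Gamma0 N) →+ O, IsLoc (HeckeActH.act0 Sy O) 𝔪 y → y = 0)
    (j : ℕ) (hj : j ≤ J) (x : Additive (GamH.GammaH (Theta Δs ψ j)) →+ O)
    (hx : IsLoc (actH Sy O (Theta Δs ψ j)) 𝔪 x) : x = 0 := by
  haveI : (GamH.GammaH (Theta Δs ψ 0)).FiniteIndex := finiteIndex_GammaH _
  haveI : Module.Finite O (Additive (GamH.GammaH (Theta Δs ψ 0)) →+ O) :=
    HomFree.homFinite_SL2Z _ O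
  haveI : Module.Free O (Additive (GamH.GammaH (Theta Δs ψ 0)) →+ O) :=
    HomFree.homFree_SL2Z _ O
  obtain ⟨d, ⟨b0⟩⟩ := Base.exists_basis_locSub (actH Sy O (Theta Δs ψ 0)) 𝔪
  obtain ⟨F, ⟨R⟩⟩ := exists_tower_le Δs ψ Sy 𝔪 J ϖ hϖ0 hmax p hp hpϖ hp0 hp2 hp3 n dd hcard hord
    hoff hneg s0 hτ (Base.baseLevel _ 𝔪 b0) (Base.realizesBase _ 𝔪 b0) j hj
  refine PlugZero.isLoc_eq_zero_of_realizes F R ?_ x hx
  -- the rank is the rank of the base module, which is zero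
  rw [← Fintype.card_fin F.d, ← Module.finrank_eq_card_basis F.basis0,
    ← (BaseGamma0.baseEquiv Sy 𝔪 (Theta Δs ψ 0)).finrank_eq]
  have hbot : Base.locSub (HeckeActH.act0 Sy O) 𝔪 = ⊥ :=
    (Submodule.eq_bot_iff _).2 fun y hy => hbase y hy
  rw [hbot]
  exact finrank_bot O _

end Bounded

/-! ### the first `k` characters of the big prime data descend to level `N` -/

section Low

variable {N q p K : ℕ} [NeZero N] [NeZero (N * q)] [hpF : Fact p.Prime] {r e N'' : ℕ → ℕ}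
  (H : PrimeData (N * q) p K r e N'') (k : ℕ) (hk : k ≤ K) (hrk : ∀ i : Fin k, r i ∣ N)

/-- the `i`-th character at level `N` (`i < k`), with the SAME target as `H.psi i` -/
noncomputable def psiLow (i : ℕ) : (ZMod N)ˣ →* Δs p e i :=
  if hi : i < k then
    @psiR N (r i) p (e i) ⟨H.prime i (lt_of_lt_of_le hi hk)⟩ (hrk ⟨i, hi⟩)
      (H.cong i (lt_of_lt_of_le hi hk))
  else 1

theorem psiLow_of_lt (i : ℕ) (hi : i < k) :
    psiLow H k hk hrk i = @psiR N (r i) p (e i) ⟨H.prime i (lt_of_lt_of_le hi hk)⟩ (hrk ⟨i, hi⟩)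
      (H.cong i (lt_of_lt_of_le hi hk)) := dif_pos hi

theorem psiLow_of_le (i : ℕ) (hi : k ≤ i) : psiLow H k hk hrk i = 1 := dif_neg (not_lt.mpr hi)

/-- the characters of the big prime data are inflated from level `N` -/
theorem psi_eq_infl_low (i : ℕ) (hi : i < k) : H.psi i = thQ (psiLow H k hk hrk i) q := by
  rw [H.psi_of_lt i (lt_of_lt_of_le hi hk), psiLow_of_lt H k hk hrk i hi]
  haveI : Fact (r i).Prime := ⟨H.prime i (lt_of_lt_of_le hi hk)⟩
  refine MonoidHom.ext fun u => ?_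
  rw [psiR_apply, MonoidHom.comp_apply, psiR_apply]
  congr 1
  have h := ZMod.unitsMap_comp (hrk ⟨i, hi⟩) (Nat.dvd_mul_right N q)
  exact (congrArg (fun f => f u) h).symm

/-- … hence so are the stages `j ≤ k` of the tower -/
theorem Theta_eq_thQ_low (j : ℕ) (hj : j ≤ k) :
    Theta (Δs p e) H.psi j = thQ (Theta (Δs p e) (psiLow H k hk hrk) j) q := by
  refine MonoidHom.ext fun u => ?_
  funext i
  rw [Theta_apply, psi_eq_infl_low H k hk hrk i (lt_of_lt_of_le i.2 hj)]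
  rfl

/-- **the stage `k` at level `N`** -/
noncomputable def thetaLow : (ZMod N)ˣ →* (∀ i : Fin k, Δs p e i) :=
  Theta (Δs p e) (psiLow H k hk hrk) k

/-- **(i)** `Theta (Δs p e) H.psi k = thQ thetaLow q` -/
theorem Theta_eq_thQ_thetaLow :
    Theta (Δs p e) H.psi k = thQ (thetaLow H k hk hrk) q :=
  Theta_eq_thQ_low H k hk hrk k le_rfl

/-- diamond generators at level `N` -/
theorem exists_ddLow : ∃ dd' : ℕ → Gamma0 N, ∀ i,
    dUnits N (dd' i)
      = ZMod.unitsMap (Nat.dvd_mul_right N q) (dUnits (N * q) (H.dd hpF.out i)) := by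
  choose dd' hdd' using fun i => GamH.dUnits_surjective (N := N)
    (ZMod.unitsMap (Nat.dvd_mul_right N q) (dUnits (N * q) (H.dd hpF.out i)))
  exact ⟨dd', hdd'⟩

theorem psiLow_dd {dd' : ℕ → Gamma0 N}
    (hdd' : ∀ i, dUnits N (dd' i)
      = ZMod.unitsMap (Nat.dvd_mul_right N q) (dUnits (N * q) (H.dd hpF.out i)))
    (i j : ℕ) (hi : i < k) :
    psiLow H k hk hrk i (dUnits N (dd' j)) = H.psi i (dUnits (N * q) (H.dd hpF.out j)) := by
  rw [hdd', psi_eq_infl_low H k hk hrk i hi]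
  rfl

theorem psiLow_neg_one (hp2 : p ≠ 2) (i : ℕ) : psiLow H k hk hrk i (-1) = 1 := by
  by_cases hi : i < k
  · rw [psiLow_of_lt H k hk hrk i hi]
    haveI : Fact (r i).Prime := ⟨H.prime i (lt_of_lt_of_le hi hk)⟩
    exact psiR_neg_one (hrk ⟨i, hi⟩) (H.cong i (lt_of_lt_of_le hi hk)) hpF.out hp2
  · rw [psiLow_of_le H k hk hrk i (not_lt.mp hi), MonoidHom.one_apply]

end Low

/-! ### the vanishing at level `N` and the binders of `UqOne` -/

section Zero

variable {N q p K : ℕ} [NeZero N] [NeZero (N * q)] [hpF : Fact p.Prime] {r e N'' : ℕ → ℕ}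
variable (Sy : Symbols N)
variable {O : Type} [CommRing O] [IsDomain O] [IsPrincipalIdealRing O] [IsLocalRing O]
  [IsAdicComplete (IsLocalRing.maximalIdeal O) O] [Module.IsTorsionFree ℤ O]
variable (𝔪 : Ideal (Sy.𝕋 O)) [𝔪.IsMaximal]
variable (H : PrimeData (N * q) p K r e N'') (k : ℕ) (hk : k ≤ K) (hrk : ∀ i : Fin k, r i ∣ N)
variable {ϖ : O} {s0 : Sy.ι₁} (h : Plug.Hyp Sy 𝔪 p ϖ s0)

include h in
/-- **the tower at level `N` for the descended characters over a zero base**, all stages `j ≤ k` -/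
theorem thetaLow_zero_le
    (hbase : ∀ y : Additive (Gamma0 N) →+ O, IsLoc (HeckeActH.act0 Sy O) 𝔪 y → y = 0)
    (j : ℕ) (hj : j ≤ k)
    (y : Additive (GamH.GammaH (Theta (Δs p e) (psiLow H k hk hrk) j)) →+ O)
    (hy : IsLoc (actH Sy O (Theta (Δs p e) (psiLow H k hk hrk) j)) 𝔪 y) : y = 0 := by
  obtain ⟨dd', hdd'⟩ := exists_ddLow H
  refine isLoc_eq_zero_le (Δs p e) (psiLow H k hk hrk) Sy 𝔪 k ϖ h.hϖ0 h.hmax p hpF.out h.hpϖ h.hp0
    h.hp2 h.hp3 e dd' ?_ ?_ ?_ ?_ s0 h.hτ hbase j hj y hy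
  · intro i _
    rw [← Nat.card_eq_fintype_card]
    exact H.card_target hpF.out i
  · intro i hi
    rw [psiLow_dd H k hk hrk hdd' i i hi]
    exact H.orderOf_psi_dd hpF.out i
  · intro i j' hi _ hij
    rw [psiLow_dd H k hk hrk hdd' i j' hi]
    exact H.psi_dd_of_ne hpF.out i j' hij
  · intro i _
    exact psiLow_neg_one H k hk hrk h.hp2 i

include h in
/-- **(ii)** `Hom(Γ₀(N), O)_𝔪 = 0 ⟹ Hom(Γ_H(thetaLow), O)_𝔪 = 0` -/
theorem thetaLow_zero
    (hbase : ∀ y : Additive (Gamma0 N) →+ O, IsLoc (HeckeActH.act0 Sy O) 𝔪 y → y = 0)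
    (y : Additive (GamH.GammaH (thetaLow H k hk hrk)) →+ O)
    (hy : IsLoc (actH Sy O (thetaLow H k hk hrk)) 𝔪 y) : y = 0 :=
  thetaLow_zero_le Sy 𝔪 H k hk hrk h hbase k le_rfl y hy

end Zero

section Package

variable {N q p K : ℕ} [NeZero N] [NeZero (N * q)] [hpF : Fact p.Prime] {r e N'' : ℕ → ℕ}
variable (Sy : Symbols (N * q)) (hrN : ∀ j, Sy.r j ∣ N)
variable {O : Type} [CommRing O] [IsDomain O] [IsPrincipalIdealRing O] [IsLocalRing O]
  [IsAdicComplete (IsLocalRing.maximalIdeal O) O] [Module.IsTorsionFree ℤ O]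
variable (𝔪 : Ideal (Sy.𝕋 O)) [𝔪.IsMaximal]
variable (H : PrimeData (N * q) p K r e N'') (k : ℕ) (hk : k ≤ K) (hrk : ∀ i : Fin k, r i ∣ N)
variable {ϖ : O} {s0 : Sy.ι₁}

/-- the standing hypotheses of B3 pass to the restricted symbols (same symbol algebra) -/
theorem hyp_restrict (h : Plug.Hyp Sy 𝔪 p ϖ s0) :
    Plug.Hyp (restrict Sy hrN) 𝔪 p ϖ s0 :=
  ⟨h.hϖ0, h.hmax, h.hpϖ, h.hp0, h.hp2, h.hp3, h.hτ⟩

variable (h : Plug.Hyp (restrict Sy hrN) 𝔪 p ϖ s0)

include h hk hrk in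
/-- **the binders `θ' hθ hzero` of `GB/B7/UqOne.exists_tw₁`**, from the vanishing of
`Hom(Γ₀(N), O)_𝔪` -/
theorem exists_thetaLow
    (hbase : ∀ y : Additive (Gamma0 N) →+ O,
      IsLoc (HeckeActH.act0 (restrict Sy hrN) O) 𝔪 y → y = 0) :
    ∃ θ' : (ZMod N)ˣ →* (∀ i : Fin k, Multiplicative (ZMod (p ^ e i))),
      Theta (fun i => Multiplicative (ZMod (p ^ e i))) H.psi k = thQ θ' q ∧
      ∀ y : Additive (GamH.GammaH θ') →+ O,
        IsLoc (actH (restrict Sy hrN) O θ') 𝔪 y → y = 0 := by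
  have hmax : Ideal.IsMaximal (show Ideal ((restrict Sy hrN).𝕋 O) from 𝔪) := ‹𝔪.IsMaximal›
  exact ⟨thetaLow H k hk hrk, Theta_eq_thQ_thetaLow H k hk hrk, fun y hy =>
    @thetaLow_zero N q p K _ _ hpF r e N'' (restrict Sy hrN) O _ _ _ _ _ _ 𝔪 hmax H k hk hrk ϖ s0 h
      hbase y hy⟩

variable [Fact q.Prime] (hqN : ¬ q ∣ N)

include h in
/-- **over a zero base at level `N` the `𝔪`-primary part of `Hom(Γ_H(thQ thetaLow q), O)` is
`q`-new**: both degeneracy transfers vanish on it (`thQ thetaLow q = Theta (Δs p e) H.psi k`,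
`Theta_eq_thQ_thetaLow`) -/
theorem new_of_tower_low
    (hbase : ∀ y : Additive (Gamma0 N) →+ O,
      IsLoc (HeckeActH.act0 (restrict Sy hrN) O) 𝔪 y → y = 0)
    {x : Additive (GamH.GammaH (thQ (thetaLow H k hk hrk) q)) →+ O}
    (hx : IsLoc (actH Sy O (thQ (thetaLow H k hk hrk) q)) 𝔪 x) :
    coresq (thetaLow H k hk hrk) hqN O x = 0 ∧ coresDq (thetaLow H k hk hrk) hqN O x = 0 := by
  have hmax : Ideal.IsMaximal (show Ideal ((restrict Sy hrN).𝕋 O) from 𝔪) := ‹𝔪.IsMaximal›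
  have hzero : ∀ y : Additive (GamH.GammaH (thetaLow H k hk hrk)) →+ O,
      IsLoc (actH (restrict Sy hrN) O (thetaLow H k hk hrk)) 𝔪 y → y = 0 := fun y hy =>
    @thetaLow_zero N q p K _ _ hpF r e N'' (restrict Sy hrN) O _ _ _ _ _ _ 𝔪 hmax H k hk hrk ϖ s0 h
      hbase y hy
  exact ⟨LocTransportInst.coresq_eq_zero Sy hrN (thetaLow H k hk hrk) hqN 𝔪 hzero hx,
    LocTransportInstD.coresDq_eq_zero Sy hrN (thetaLow H k hk hrk) hqN 𝔪 hzero hx⟩

include h hqN in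
/-- **`U_q² = ⟨d_q⟩`** on the `𝔪`-primary part of `Hom(Γ_H(thQ thetaLow q), O)` over a zero base at
level `N`, for the BIG prime data -/
theorem UH_UH_of_tower_low
    (hbase : ∀ y : Additive (Gamma0 N) →+ O,
      IsLoc (HeckeActH.act0 (restrict Sy hrN) O) 𝔪 y → y = 0)
    {x : Additive (GamH.GammaH (thQ (thetaLow H k hk hrk) q)) →+ O}
    (hx : IsLoc (actH Sy O (thQ (thetaLow H k hk hrk) q)) 𝔪 x)
    (u : (ZMod N)ˣ) (hu : (u : ZMod N) = (q : ZMod N))
    (dq : Gamma0 (N * q))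
    (hdq : EisGamma0.chi (thQ (thetaLow H k hk hrk) q) dq = thetaLow H k hk hrk u) :
    GamH.UH (thQ (thetaLow H k hk hrk) q) O
        (GM.B5.dvd_mul_self_right (N := N) (q := q))
        (GamH.UH (thQ (thetaLow H k hk hrk) q) O
          (GM.B5.dvd_mul_self_right (N := N) (q := q)) x)
      = GamH.diaH (thQ (thetaLow H k hk hrk) q) O dq x := by
  obtain ⟨h1, h2⟩ := new_of_tower_low Sy hrN 𝔪 H k hk hrk h hqN hbase hx
  exact UH_UH_of_ker (thetaLow H k hk hrk) hqN x h1 h2 u hu dq hdq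

end Package

end GB.B3.SeamQ
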