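import Mathlib
import Fermat.Agent.GB.B3.DescendEnd
import Fermat.Agent.GE8.P3B.GB.B3.Plug
import Fermat.Agent.GE8.P3B.StepGen
import Fermat.Agent.GE8.P3B.Ok3W

/- TWIN (helper6 B4 generator; conventions of helper24 / helper86) of `Fermat.Agent.GB.B3.DescendPlug` with `p ≠ 3` relaxed to `Ok3A Sy 𝔪 p` / `Ok3W p W` (RISK-5 fix (B), step B4); everything below lives in the wrapper namespace `Fermat.Agent.GE8.P3B`. -/
set_option linter.dupNamespace false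
open Fermat Fermat.Agent Fermat.Agent.GB Fermat.Agent.GB.B3 Fermat.Agent.GB.B3.ChiLevelMulti Fermat.Agent.GB.B3.DescendEnd Fermat.Agent.GB.B3.EisGamma0 Fermat.Agent.GB.B3.HeckeActH Fermat.Agent.GB.B3.RealLevel Fermat.Agent.GB.B3.TWChars Fermat.Agent.GB.B3.TWLevel Fermat.Agent.GM Fermat.Agent.GM.B

namespace Fermat.Agent.GE8.P3B

/-!
GATE-B / B3 (helper95): **`DescendEnd.exists_descend` at `Plug.tw`** — operators `σ` of the
`𝔪`-primary part of `Hom(Γ_H(Theta (s + k)), O)` (the ambient module of `Plug.bigLevel`) commuting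
with the diamonds `⟨d⟩`, `d ∈ Γ₀(N)`, act on `M¹_Q = (Plug.tw …).L1.M` and `M^χ_Q = (Plug.tw …).Lχ.M`
with the fields `a₁ a₂ a₁_D a₂_D a_U` of `GB/B9/ModOfTW.TWInput` (ring hom form):

* `bigConj Sy 𝔪 H h j σ : A' →+* End_O (bigLevel j).M`, `ι_bigConj`;
* `bigConj_comm_D` : commutation with every diamond of the big level;
* DEFS `a₁Plug`, `a₂Plug` with `a₁Plug_fmk`, `a₂Plug_fmk`, `a₁Plug_D`, `a₂Plug_D`, `a₁Plug_act`,
  `a₂Plug_act`, `aPlug_U`; **`exists_descend_plug`** (existential form).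

Feed `σ := UqOne.twLoc …` (helper52) or any restriction of helper44's `tw` under (BND).
-/

set_option autoImplicit false
set_option linter.unusedSectionVars false

open scoped MatrixGroups
open CongruenceSubgroup

namespace GB.B3.DescendPlug

open GM.B GB.B3 GB.B3.EisGamma0
  GB.B3.TWLevel GB.B3.RealLevel GB.B3.HeckeActH
  GB.B3.StepInst GB.B3.Tower GB.B3.Final
  GB.B3.TWChars GB.B3.ChiLevelMulti GB.B3.FinalTW
  GB.B3.Plug GB.B3.DescendEnd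

variable {N p : ℕ} [NeZero N] [hpF : Fact p.Prime] {K : ℕ} {r e N' : ℕ → ℕ}
variable (Sy : Symbols N)
variable {O : Type} [CommRing O] [IsDomain O] [IsPrincipalIdealRing O] [IsLocalRing O]
  [IsAdicComplete (IsLocalRing.maximalIdeal O) O] [Module.IsTorsionFree ℤ O]
variable (𝔪 : Ideal (Sy.𝕋 O)) [𝔪.IsMaximal]
variable (H : PrimeData N p K r e N') {ϖ : O} {s0 : Sy.ι₁} (h : Hyp Sy 𝔪 p ϖ s0)
variable {A' : Type*} [Semiring A']

/-- operators of `Hom(Γ_H(Theta j), O)_𝔪` carried to the big level -/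
noncomputable def bigConj (j : ℕ)
    (σ : A' →+* Module.End O (Base.locSub (actH Sy O (Theta (Δs p e) H.psi j)) 𝔪)) :
    A' →+* Module.End O (bigLevel Sy 𝔪 H h j).M :=
  conjHom (bigReal Sy 𝔪 H h j) σ

/-- **`ι (bigConj σ t x) = σ t (ι x)`** -/
theorem ι_bigConj (j : ℕ)
    (σ : A' →+* Module.End O (Base.locSub (actH Sy O (Theta (Δs p e) H.psi j)) 𝔪))
    (t : A') (x : (bigLevel Sy 𝔪 H h j).M) :
    (bigReal Sy 𝔪 H h j).ι (bigConj Sy 𝔪 H h j σ t x)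
      = ((σ t (equivLocSub (bigReal Sy 𝔪 H h j) x) :
          Base.locSub (actH Sy O (Theta (Δs p e) H.psi j)) 𝔪) :
          Additive (GamH.GammaH (Theta (Δs p e) H.psi j)) →+ O) :=
  ι_conjHom (bigReal Sy 𝔪 H h j) σ t x

/-- commutation with the diamonds `⟨d⟩` of `Γ₀(N)` gives commutation with the diamonds of the big
level -/
theorem bigConj_comm_D (j : ℕ)
    (σ : A' →+* Module.End O (Base.locSub (actH Sy O (Theta (Δs p e) H.psi j)) 𝔪))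
    (hσd : ∀ (t : A') (d : Gamma0 N)
      (y y' : Base.locSub (actH Sy O (Theta (Δs p e) H.psi j)) 𝔪),
      (y' : Additive (GamH.GammaH (Theta (Δs p e) H.psi j)) →+ O)
          = GamH.diaH (Theta (Δs p e) H.psi j) O d
            (y : Additive (GamH.GammaH (Theta (Δs p e) H.psi j)) →+ O) →
        ((σ t y' : Base.locSub (actH Sy O (Theta (Δs p e) H.psi j)) 𝔪) :
            Additive (GamH.GammaH (Theta (Δs p e) H.psi j)) →+ O)
          = GamH.diaH (Theta (Δs p e) H.psi j) O d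
            ((σ t y : Base.locSub (actH Sy O (Theta (Δs p e) H.psi j)) 𝔪) :
              Additive (GamH.GammaH (Theta (Δs p e) H.psi j)) →+ O))
    (t : A') (i : Fin j) :
    bigConj Sy 𝔪 H h j σ t * (bigLevel Sy 𝔪 H h j).D i
      = (bigLevel Sy 𝔪 H h j).D i * bigConj Sy 𝔪 H h j σ t :=
  conjHom_comm_D (bigReal Sy 𝔪 H h j) σ
    (fun t i y y' hy => hσd t (dfun (H.dd hpF.out) j i) y y' hy) t i

variable (s k : ℕ) (c : Fin s → O) (hc : ∀ v : Fin s, c v ^ p ^ e (s + k - 1 - v) = 1)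
  (hc1 : ∀ v, (1 : O) - c v ∈ Ideal.span {ϖ})

variable (σ : A' →+* Module.End O (Base.locSub (actH Sy O (Theta (Δs p e) H.psi (s + k))) 𝔪))
    (hσd : ∀ (t : A') (d : Gamma0 N)
      (y y' : Base.locSub (actH Sy O (Theta (Δs p e) H.psi (s + k))) 𝔪),
      (y' : Additive (GamH.GammaH (Theta (Δs p e) H.psi (s + k))) →+ O)
          = GamH.diaH (Theta (Δs p e) H.psi (s + k)) O d
            (y : Additive (GamH.GammaH (Theta (Δs p e) H.psi (s + k))) →+ O) →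
        ((σ t y' : Base.locSub (actH Sy O (Theta (Δs p e) H.psi (s + k))) 𝔪) :
            Additive (GamH.GammaH (Theta (Δs p e) H.psi (s + k))) →+ O)
          = GamH.diaH (Theta (Δs p e) H.psi (s + k)) O d
            ((σ t y : Base.locSub (actH Sy O (Theta (Δs p e) H.psi (s + k))) 𝔪) :
              Additive (GamH.GammaH (Theta (Δs p e) H.psi (s + k))) →+ O))

/-- **the action on `M¹_Q`** induced by `σ` (a DEF: do not `obtain` from the existential below, the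
elaborator is slow on existentials over `(tw …).L1.M`) -/
noncomputable def a₁Plug : A' →+* Module.End O (tw Sy 𝔪 H h s k c hc hc1).L1.M :=
  quotHom (bigLevel Sy 𝔪 H h (s + k)) (bigConj Sy 𝔪 H h (s + k) σ)
    (bigConj_comm_D Sy 𝔪 H h (s + k) σ hσd) (fun _ => (1 : O))

/-- **the action on `M^χ_Q`** induced by `σ` -/
noncomputable def a₂Plug : A' →+* Module.End O (tw Sy 𝔪 H h s k c hc hc1).Lχ.M :=
  quotHom (bigLevel Sy 𝔪 H h (s + k)) (bigConj Sy 𝔪 H h (s + k) σ)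
    (bigConj_comm_D Sy 𝔪 H h (s + k) σ hσd) c

theorem a₁Plug_fmk (t : A') (x : (bigLevel Sy 𝔪 H h (s + k)).M) :
    a₁Plug Sy 𝔪 H h s k c hc hc1 σ hσd t
        (fmk (frD (bigLevel Sy 𝔪 H h (s + k))) (fun _ => (1 : O)) x)
      = fmk (frD (bigLevel Sy 𝔪 H h (s + k))) (fun _ => (1 : O))
          (bigConj Sy 𝔪 H h (s + k) σ t x) := rfl

theorem a₂Plug_fmk (t : A') (x : (bigLevel Sy 𝔪 H h (s + k)).M) :
    a₂Plug Sy 𝔪 H h s k c hc hc1 σ hσd t (fmk (frD (bigLevel Sy 𝔪 H h (s + k))) c x)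
      = fmk (frD (bigLevel Sy 𝔪 H h (s + k))) c (bigConj Sy 𝔪 H h (s + k) σ t x) := rfl

/-- `a₁_D` -/
theorem a₁Plug_D (t : A') (i : Fin k) :
    a₁Plug Sy 𝔪 H h s k c hc hc1 σ hσd t * (tw Sy 𝔪 H h s k c hc hc1).L1.D i
      = (tw Sy 𝔪 H h s k c hc hc1).L1.D i * a₁Plug Sy 𝔪 H h s k c hc hc1 σ hσd t :=
  quotHom_comm_D (bigLevel Sy 𝔪 H h (s + k)) (bigConj Sy 𝔪 H h (s + k) σ)
    (bigConj_comm_D Sy 𝔪 H h (s + k) σ hσd) (fun _ => (1 : O)) t i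

/-- `a₂_D` -/
theorem a₂Plug_D (t : A') (i : Fin k) :
    a₂Plug Sy 𝔪 H h s k c hc hc1 σ hσd t * (tw Sy 𝔪 H h s k c hc hc1).Lχ.D i
      = (tw Sy 𝔪 H h s k c hc hc1).Lχ.D i * a₂Plug Sy 𝔪 H h s k c hc hc1 σ hσd t :=
  quotHom_comm_D (bigLevel Sy 𝔪 H h (s + k)) (bigConj Sy 𝔪 H h (s + k) σ)
    (bigConj_comm_D Sy 𝔪 H h (s + k) σ hσd) c t i

/-- commutation with the Hecke symbols on `M¹_Q` -/
theorem a₁Plug_act (t : A') (u : Sy.𝕋 O)
    (hu : Commute (σ t) (Base.locSubAct (actH Sy O (Theta (Δs p e) H.psi (s + k))) 𝔪 u)) :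
    a₁Plug Sy 𝔪 H h s k c hc hc1 σ hσd t * (tw Sy 𝔪 H h s k c hc hc1).L1.act u
      = (tw Sy 𝔪 H h s k c hc hc1).L1.act u * a₁Plug Sy 𝔪 H h s k c hc hc1 σ hσd t :=
  quotHom_comm_act (bigLevel Sy 𝔪 H h (s + k)) (bigConj Sy 𝔪 H h (s + k) σ)
    (bigConj_comm_D Sy 𝔪 H h (s + k) σ hσd) (fun _ => (1 : O)) t u
    (conjHom_comm_act (bigReal Sy 𝔪 H h (s + k)) σ t u hu)

/-- commutation with the Hecke symbols on `M^χ_Q` -/
theorem a₂Plug_act (t : A') (u : Sy.𝕋 O)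
    (hu : Commute (σ t) (Base.locSubAct (actH Sy O (Theta (Δs p e) H.psi (s + k))) 𝔪 u)) :
    a₂Plug Sy 𝔪 H h s k c hc hc1 σ hσd t * (tw Sy 𝔪 H h s k c hc hc1).Lχ.act u
      = (tw Sy 𝔪 H h s k c hc hc1).Lχ.act u * a₂Plug Sy 𝔪 H h s k c hc hc1 σ hσd t :=
  quotHom_comm_act (bigLevel Sy 𝔪 H h (s + k)) (bigConj Sy 𝔪 H h (s + k) σ)
    (bigConj_comm_D Sy 𝔪 H h (s + k) σ hσd) c t u
    (conjHom_comm_act (bigReal Sy 𝔪 H h (s + k)) σ t u hu)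

/-- `a_U` -/
theorem aPlug_U (t : A') (x : (tw Sy 𝔪 H h s k c hc hc1).L1.M)
    (y : (tw Sy 𝔪 H h s k c hc hc1).Lχ.M)
    (hxy : (tw Sy 𝔪 H h s k c hc hc1).U (Submodule.Quotient.mk x) = Submodule.Quotient.mk y) :
    (tw Sy 𝔪 H h s k c hc hc1).U
        (Submodule.Quotient.mk (a₁Plug Sy 𝔪 H h s k c hc hc1 σ hσd t x))
      = Submodule.Quotient.mk (a₂Plug Sy 𝔪 H h s k c hc hc1 σ hσd t y) :=
  chiUM_comm (frD (bigLevel Sy 𝔪 H h (s + k))) ϖ c hc1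
    (a₁Plug Sy 𝔪 H h s k c hc hc1 σ hσd t) (a₂Plug Sy 𝔪 H h s k c hc hc1 σ hσd t)
    (bigConj Sy 𝔪 H h (s + k) σ t) (fun _ => rfl) (fun _ => rfl) x y hxy

include hσd in
/-- **the fields `a₁ a₂ a₁_D a₂_D a_U` of `TWInput` for `Plug.tw`**, existential form -/
theorem exists_descend_plug :
    ∃ (a₁ : A' →+* Module.End O (tw Sy 𝔪 H h s k c hc hc1).L1.M)
      (a₂ : A' →+* Module.End O (tw Sy 𝔪 H h s k c hc hc1).Lχ.M),
      (∀ t x, a₁ t (fmk (frD (bigLevel Sy 𝔪 H h (s + k))) (fun _ => (1 : O)) x)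
        = fmk (frD (bigLevel Sy 𝔪 H h (s + k))) (fun _ => (1 : O))
            (bigConj Sy 𝔪 H h (s + k) σ t x)) ∧
      (∀ t x, a₂ t (fmk (frD (bigLevel Sy 𝔪 H h (s + k))) c x)
        = fmk (frD (bigLevel Sy 𝔪 H h (s + k))) c (bigConj Sy 𝔪 H h (s + k) σ t x)) ∧
      (∀ t i, a₁ t * (tw Sy 𝔪 H h s k c hc hc1).L1.D i
        = (tw Sy 𝔪 H h s k c hc hc1).L1.D i * a₁ t) ∧
      (∀ t i, a₂ t * (tw Sy 𝔪 H h s k c hc hc1).Lχ.D i
        = (tw Sy 𝔪 H h s k c hc hc1).Lχ.D i * a₂ t) ∧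
      (∀ t u, Commute (σ t)
          (Base.locSubAct (actH Sy O (Theta (Δs p e) H.psi (s + k))) 𝔪 u) →
        a₁ t * (tw Sy 𝔪 H h s k c hc hc1).L1.act u
          = (tw Sy 𝔪 H h s k c hc hc1).L1.act u * a₁ t ∧
        a₂ t * (tw Sy 𝔪 H h s k c hc hc1).Lχ.act u
          = (tw Sy 𝔪 H h s k c hc hc1).Lχ.act u * a₂ t) ∧
      (∀ (t : A') (x : (tw Sy 𝔪 H h s k c hc hc1).L1.M)
          (y : (tw Sy 𝔪 H h s k c hc hc1).Lχ.M),
        (tw Sy 𝔪 H h s k c hc hc1).U (Submodule.Quotient.mk x) = Submodule.Quotient.mk y →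
          (tw Sy 𝔪 H h s k c hc hc1).U (Submodule.Quotient.mk (a₁ t x))
            = Submodule.Quotient.mk (a₂ t y)) :=
  ⟨a₁Plug Sy 𝔪 H h s k c hc hc1 σ hσd, a₂Plug Sy 𝔪 H h s k c hc hc1 σ hσd,
    a₁Plug_fmk Sy 𝔪 H h s k c hc hc1 σ hσd, a₂Plug_fmk Sy 𝔪 H h s k c hc hc1 σ hσd,
    a₁Plug_D Sy 𝔪 H h s k c hc hc1 σ hσd, a₂Plug_D Sy 𝔪 H h s k c hc hc1 σ hσd,
    fun t u hu => ⟨a₁Plug_act Sy 𝔪 H h s k c hc hc1 σ hσd t u hu,
      a₂Plug_act Sy 𝔪 H h s k c hc hc1 σ hσd t u hu⟩,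
    aPlug_U Sy 𝔪 H h s k c hc hc1 σ hσd⟩

end GB.B3.DescendPlug

end Fermat.Agent.GE8.P3B
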